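import Fermat.Agent.H18.ORD.NodalBal
import Fermat.Agent.H58.RR.NonSpecial

/-!
# P-ORD, row ORD-GA-SYS (helper69), part 1 : functions on one component of the special fibre

Pure Riemann-package statements over a field `K` (all places of degree one):

* `sys_exists_value` : a function regular at `v` has a value at `v`;
* `sys_exists_simple_zero` : for `n` large there is a function of `L(n Q∞)` with a simple zero
  at a given place `Q ≠ Q∞`;
* `sys_exists_interp` : for `n` large, the functions of `L(n Q∞)` interpolate arbitrary values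
  at the places of a finite set `S ∌ Q∞`.
-/

set_option autoImplicit false
set_option linter.unusedSectionVars false

noncomputable section

open AlgebraicCurve

namespace Fermat.Agent.H69.ORD

open Fermat.Agent.H27.ESD Fermat.Agent.H58

variable {K F : Type*} [Field K] [Field F] [Algebra K F]

/-- monotonicity of the Riemann-Roch spaces, pointwise form -/
theorem sys_rr_mono {D E : Divisor K F} (h : ∀ v, D v ≤ E v) :
    riemannRochSpace D ≤ riemannRochSpace E := by
  intro x hx
  rw [mem_riemannRochSpace_iff] at hx ⊢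
  intro v
  rcases hx v with h0 | h0
  · exact Or.inl h0
  · right
    have := h v
    omega

/-- For `deg E` large, `L(E - Q)` is strictly smaller than `L(E)`. -/
theorem sys_exists_rr_diff {g : ℕ} (hk : RiemannPackage K F g) (ck : ℤ)
    (hck : ∀ D : Divisor K F, ck ≤ Divisor.degree D →
      (Module.finrank K (riemannRochSpace D) : ℤ) = Divisor.degree D + 1 - (g : ℤ))
    (E : Divisor K F) (Q : Place K F) (hE : ck + 1 ≤ Divisor.degree E) :
    ∃ x ∈ riemannRochSpace E, x ∉ riemannRochSpace (E - Finsupp.single Q 1) := by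
  classical
  have hdeg : Divisor.degree (E - Finsupp.single Q 1) = Divisor.degree E - 1 := by
    rw [map_sub, Divisor.degree_single, hk.deg_one]
    simp
  have e1 := hck E (by omega)
  have e2 := hck (E - Finsupp.single Q 1) (by rw [hdeg]; omega)
  rw [hdeg] at e2
  have hle : riemannRochSpace (E - Finsupp.single Q 1) ≤ riemannRochSpace E := by
    apply sys_rr_mono
    intro v
    rw [Finsupp.sub_apply, Finsupp.single_apply]
    split_ifs <;> omega
  by_contra hcon
  have hcon' : ∀ x ∈ riemannRochSpace E, x ∈ riemannRochSpace (E - Finsupp.single Q 1) := by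
    intro x hx
    by_contra hx'
    exact hcon ⟨x, hx, hx'⟩
  have heq : riemannRochSpace E = riemannRochSpace (E - Finsupp.single Q 1) :=
    le_antisymm hcon' hle
  rw [heq] at e1
  omega

/-- An element of `L(E) \ L(E - Q)` is nonzero of order exactly `-E(Q)` at `Q`. -/
theorem sys_ord_of_rr_diff (E : Divisor K F) (Q : Place K F) (x : F)
    (hx : x ∈ riemannRochSpace E) (hx' : x ∉ riemannRochSpace (E - Finsupp.single Q 1)) :
    x ≠ 0 ∧ Q.ord x = -E Q := by
  classical
  have hx0 : x ≠ 0 := fun h0 => hx' (h0 ▸ Submodule.zero_mem _)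
  refine ⟨hx0, ?_⟩
  rw [mem_riemannRochSpace_iff] at hx
  have h1 : -E Q ≤ Q.ord x := (hx Q).resolve_left hx0
  by_contra hne
  apply hx'
  rw [mem_riemannRochSpace_iff]
  intro v
  right
  have h2 : -E v ≤ v.ord x := (hx v).resolve_left hx0
  rw [Finsupp.sub_apply, Finsupp.single_apply]
  split_ifs with hv
  · subst hv
    omega
  · omega

/-- the maximal ideal of a place is closed under addition -/
theorem sys_nonunits_add (v : Place K F) {x y : F}
    (hx : x ∈ v.toValuationSubring.nonunits) (hy : y ∈ v.toValuationSubring.nonunits) :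
    x + y ∈ v.toValuationSubring.nonunits := by
  rw [ValuationSubring.mem_nonunits_iff] at hx hy ⊢
  exact lt_of_le_of_lt (Valuation.map_add _ _ _) (max_lt hx hy)

/-- the maximal ideal of a place is closed under multiplication by constants -/
theorem sys_nonunits_const_mul (v : Place K F) (c : K) {x : F}
    (hx : x ∈ v.toValuationSubring.nonunits) :
    algebraMap K F c * x ∈ v.toValuationSubring.nonunits := by
  rw [ValuationSubring.mem_nonunits_iff] at hx ⊢
  rw [map_mul]
  have h1 : v.toValuationSubring.valuation (algebraMap K F c) ≤ 1 :=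
    (ValuationSubring.valuation_le_one_iff _ _).mpr (v.algebraMap_mem' c)
  exact lt_of_le_of_lt (mul_le_of_le_one_left' h1) hx

/-- zero lies in the maximal ideal -/
theorem sys_zero_mem_nonunits (v : Place K F) : (0 : F) ∈ v.toValuationSubring.nonunits :=
  (Fermat.Agent.H18.ORD.nb_mem_nonunits_iff v 0).mpr (Or.inl rfl)

/-- a function regular at a place of degree one has a value there -/
theorem sys_exists_value (v : Place K F) (hdeg : v.deg = 1) {x : F}
    (hx : x = 0 ∨ 0 ≤ v.ord x) :
    ∃ κ : K, x - algebraMap K F κ ∈ v.toValuationSubring.nonunits := by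
  obtain ⟨c, hc⟩ := Fermat.Agent.H23.exists_const_ord_sub_pos v hdeg hx
  refine ⟨c, (Fermat.Agent.H18.ORD.nb_mem_nonunits_iff v _).mpr ?_⟩
  rcases hc with h | h
  · left
    rw [h, sub_self]
  · right
    omega

/-- an element of `L(n Q∞)` is regular outside `Q∞` -/
theorem sys_regular_of_mem (Qinf v : Place K F) (n : ℕ) {x : F}
    (hx : x ∈ riemannRochSpace (Finsupp.single Qinf (n : ℤ))) (hne : v ≠ Qinf) :
    x = 0 ∨ 0 ≤ v.ord x := by
  classical
  rw [mem_riemannRochSpace_iff] at hx
  rcases hx v with h | h
  · exact Or.inl h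
  · right
    rw [Finsupp.single_apply, if_neg (Ne.symm hne)] at h
    omega

/-- the value of `rrSum` at a member -/
theorem sys_rrSum_apply_of_mem {T : Finset (Place K F)} {v : Place K F} (hv : v ∈ T) :
    rrSum T v = 1 := by
  classical
  rw [rrSum, Finsupp.finsetSum_apply, Finset.sum_eq_single v]
  · simp
  · intro w _ hwv
    rw [Finsupp.single_apply, if_neg hwv]
  · intro hh
    exact absurd hv hh

/-- **Simple zero.**  For `n` large there is a function of `L(n Q∞)` with a simple zero at
`Q ≠ Q∞`. -/
theorem sys_exists_simple_zero {g : ℕ} (hk : RiemannPackage K F g) (Qinf Q : Place K F)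
    (hQ : Q ≠ Qinf) :
    ∃ n₁ : ℕ, ∀ n : ℕ, n₁ ≤ n →
      ∃ x ∈ riemannRochSpace (Finsupp.single Qinf (n : ℤ)), x ≠ 0 ∧ Q.ord x = 1 := by
  classical
  obtain ⟨ck, hck⟩ := hk.eq_of_large
  refine ⟨(ck + 2).toNat, fun n hn => ?_⟩
  have hn' : ck + 2 ≤ (n : ℤ) := by
    have := Int.self_le_toNat (ck + 2)
    omega
  have hdegE : Divisor.degree (Finsupp.single Qinf (n : ℤ) - Finsupp.single Q 1 :
      Divisor K F) = n - 1 := by
    rw [map_sub, Divisor.degree_single, Divisor.degree_single, hk.deg_one, hk.deg_one]
    simp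
  obtain ⟨x, hxE, hxE'⟩ := sys_exists_rr_diff hk ck hck
    (Finsupp.single Qinf (n : ℤ) - Finsupp.single Q 1) Q (by rw [hdegE]; omega)
  obtain ⟨hx0, hxQ⟩ := sys_ord_of_rr_diff _ Q x hxE hxE'
  have hEQ : (Finsupp.single Qinf (n : ℤ) - Finsupp.single Q 1 : Divisor K F) Q = -1 := by
    rw [Finsupp.sub_apply, Finsupp.single_apply, Finsupp.single_apply, if_neg (Ne.symm hQ),
      if_pos rfl]
    simp
  rw [hEQ] at hxQ
  refine ⟨x, ?_, hx0, by omega⟩
  refine sys_rr_mono ?_ hxE
  intro v
  rw [Finsupp.sub_apply]
  have : 0 ≤ (Finsupp.single Q (1 : ℤ)) v := by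
    rw [Finsupp.single_apply]
    split_ifs <;> omega
  omega

/-- **Interpolation.**  For `n` large, the functions of `L(n Q∞)` take arbitrary prescribed
values at the places of a finite set `S ∌ Q∞`. -/
theorem sys_exists_interp {g : ℕ} (hk : RiemannPackage K F g) (Qinf : Place K F)
    (S : Finset (Place K F)) (hS : Qinf ∉ S) :
    ∃ n₂ : ℕ, ∀ n : ℕ, n₂ ≤ n → ∀ κ : Place K F → K,
      ∃ y ∈ riemannRochSpace (Finsupp.single Qinf (n : ℤ)),
        ∀ v ∈ S, y - algebraMap K F (κ v) ∈ v.toValuationSubring.nonunits := by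
  classical
  induction S using Finset.induction_on with
  | empty =>
    exact ⟨0, fun n _ κ => ⟨0, Submodule.zero_mem _, fun v hv => absurd hv (Finset.notMem_empty v)⟩⟩
  | insert w S' hw ih =>
    have hQS' : Qinf ∉ S' := fun h => hS (Finset.mem_insert_of_mem h)
    have hwQ : w ≠ Qinf := fun h => hS (h ▸ Finset.mem_insert_self w S')
    obtain ⟨n₂', h'⟩ := ih hQS'
    obtain ⟨ck, hck⟩ := hk.eq_of_large
    refine ⟨max n₂' (ck + 1 + S'.card).toNat, fun n hn κ => ?_⟩
    have hn1 : n₂' ≤ n := le_trans (le_max_left _ _) hn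
    have hn2 : ck + 1 + (S'.card : ℤ) ≤ (n : ℤ) := by
      have h1 : (ck + 1 + S'.card).toNat ≤ n := le_trans (le_max_right _ _) hn
      have h2 := Int.self_le_toNat (ck + 1 + S'.card)
      omega
    obtain ⟨y', hy', hy'S⟩ := h' n hn1 κ
    -- the auxiliary function `e`
    have hdegE : Divisor.degree (Finsupp.single Qinf (n : ℤ) - rrSum S' : Divisor K F)
        = n - S'.card := by
      rw [map_sub, Divisor.degree_single, hk.deg_one, rr_degree_rrSum hk.deg_one]
      simp
    obtain ⟨e, heE, heE'⟩ := sys_exists_rr_diff hk ck hck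
      (Finsupp.single Qinf (n : ℤ) - rrSum S') w (by rw [hdegE]; omega)
    obtain ⟨he0, heord⟩ := sys_ord_of_rr_diff _ w e heE heE'
    have hEw : (Finsupp.single Qinf (n : ℤ) - rrSum S' : Divisor K F) w = 0 := by
      rw [Finsupp.sub_apply, Finsupp.single_apply, if_neg (Ne.symm hwQ),
        rrSum_apply_of_notMem hw]
      simp
    rw [hEw, neg_zero] at heord
    have heL : e ∈ riemannRochSpace (Finsupp.single Qinf (n : ℤ)) := by
      refine sys_rr_mono ?_ heE
      intro v
      rw [Finsupp.sub_apply]
      have h1 := rrSum_nonneg S'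
      rw [Finsupp.le_def] at h1
      have h2 : (0 : ℤ) ≤ rrSum S' v := by simpa using h1 v
      omega
    have heS' : ∀ v ∈ S', e ∈ v.toValuationSubring.nonunits := by
      intro v hv
      have hvQ : v ≠ Qinf := fun h => hQS' (h ▸ hv)
      rw [Fermat.Agent.H18.ORD.nb_mem_nonunits_iff]
      right
      have h1 := ((mem_riemannRochSpace_iff.mp heE) v).resolve_left he0
      rw [Finsupp.sub_apply, Finsupp.single_apply, if_neg (Ne.symm hvQ),
        sys_rrSum_apply_of_mem hv] at h1
      omega
    -- the value of `e` at `w` is not zero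
    obtain ⟨c, hc⟩ := sys_exists_value w (hk.deg_one w) (x := e) (Or.inr (by omega))
    have hc0 : c ≠ 0 := by
      rintro rfl
      rw [map_zero, sub_zero, Fermat.Agent.H18.ORD.nb_mem_nonunits_iff] at hc
      rcases hc with h | h
      · exact he0 h
      · omega
    -- the value of `y'` at `w`
    obtain ⟨b, hb⟩ := sys_exists_value w (hk.deg_one w) (sys_regular_of_mem Qinf w n hy' hwQ)
    refine ⟨y' + algebraMap K F ((κ w - b) * c⁻¹) * e, ?_, ?_⟩
    · refine Submodule.add_mem _ hy' ?_
      rw [← Algebra.smul_def]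
      exact Submodule.smul_mem _ _ heL
    · intro v hv
      rcases Finset.mem_insert.mp hv with rfl | hvS'
      · have h1 : y' + algebraMap K F ((κ v - b) * c⁻¹) * e - algebraMap K F (κ v)
            = (y' - algebraMap K F b)
              + algebraMap K F ((κ v - b) * c⁻¹) * (e - algebraMap K F c) := by
          rw [mul_sub, ← map_mul, mul_assoc, inv_mul_cancel₀ hc0, mul_one, map_sub]
          ring
        rw [h1]
        exact sys_nonunits_add v hb (sys_nonunits_const_mul v _ hc)
      · have h1 : y' + algebraMap K F ((κ w - b) * c⁻¹) * e - algebraMap K F (κ v)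
            = (y' - algebraMap K F (κ v)) + algebraMap K F ((κ w - b) * c⁻¹) * e := by
          ring
        rw [h1]
        exact sys_nonunits_add v (hy'S v hvS') (sys_nonunits_const_mul v _ (heS' v hvS'))

end Fermat.Agent.H69.ORD

end
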