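import Fermat.Agent.H69.ORD.NodalSysRR
import Fermat.Agent.H94.ORD.JacInterfaces

/-!
# P-ORD, block (G-B), lemma GLUE-O (helper69)

`glueO` : the reductions of a doubly integral function `m ∈ O = V_∞ ∩ V_0` without pole over the
nodes are GLUED: at every node `ν` the reductions `red_∞ m`, `red_0 m` are regular at the two
branches of `ν` and take the same value there.

Proof.  For a constant `c ∈ A` put `u_c = m + c`.  (1) If both reductions of `u_c` are nonzero,
the slope inequalities `node_le` (with the constant `1`) show that they are regular at the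
branches of `ν`; hence so are the reductions of `m`.  (2) For all but at most two residues of
`c` the reductions of `u_c` do not vanish at the branches of `ν`; then `u_c` has no zero over
`ν` by the strict slope inequalities `node_lt`, and `glue` applies to `u_c`.
-/

set_option autoImplicit false
set_option linter.unusedSectionVars false
set_option linter.style.haveILetI false

noncomputable section

open AlgebraicCurve ModularCurve

namespace Fermat.Agent.H69.ORD

open Fermat.Agent.H18.ORD Fermat.Agent.H72.FF Fermat.Agent.H94.ORD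

section general

variable {K F : Type*} [Field K] [Field F] [Algebra K F]

/-- the maximal ideal of a place is closed under negation -/
theorem sys_nonunits_neg (v : Place K F) {x : F} (hx : x ∈ v.toValuationSubring.nonunits) :
    -x ∈ v.toValuationSubring.nonunits := by
  rw [ValuationSubring.mem_nonunits_iff] at hx ⊢
  rw [Valuation.map_neg]
  exact hx

/-- at most one constant translate of a function lies in the maximal ideal of a place -/
theorem sys_const_unique (v : Place K F) (x : F) {κ κ' : K}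
    (h : x + algebraMap K F κ ∈ v.toValuationSubring.nonunits)
    (h' : x + algebraMap K F κ' ∈ v.toValuationSubring.nonunits) : κ = κ' := by
  have h1 : algebraMap K F (κ - κ') ∈ v.toValuationSubring.nonunits := by
    have h2 := sys_nonunits_add v h (sys_nonunits_neg v h')
    have h3 : x + algebraMap K F κ + -(x + algebraMap K F κ') = algebraMap K F (κ - κ') := by
      rw [map_sub]
      ring
    rw [h3] at h2
    exact h2
  exact sub_eq_zero.mp (nb_const_eq_zero_of_mem_nonunits v h1)

/-- at most one constant translate of a function vanishes -/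
theorem sys_const_unique_zero (x : F) {κ κ' : K}
    (h : x + algebraMap K F κ = 0) (h' : x + algebraMap K F κ' = 0) : κ = κ' := by
  have h1 : algebraMap K F κ = algebraMap K F κ' := by
    have : algebraMap K F κ = -x := by
      rw [eq_neg_iff_add_eq_zero, add_comm]
      exact h
    have h2 : algebraMap K F κ' = -x := by
      rw [eq_neg_iff_add_eq_zero, add_comm]
      exact h'
    rw [this, h2]
  exact (algebraMap K F).injective h1

/-- an element of the valuation ring of a place outside the maximal ideal has order `0` -/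
theorem sys_ord_eq_zero_of_unit (v : Place K F) {x : F} (hx : x ∈ v.toValuationSubring)
    (hx' : x ∉ v.toValuationSubring.nonunits) : x ≠ 0 ∧ v.ord x = 0 := by
  have h0 : x ≠ 0 := by
    rintro rfl
    exact hx' (sys_zero_mem_nonunits v)
  refine ⟨h0, ?_⟩
  have h1 : 0 ≤ v.ord x := ((Fermat.Agent.H23.mem_iff_ord v).mp hx).resolve_left h0
  have h2 : ¬ (1 ≤ v.ord x) := fun h => hx' ((nb_mem_nonunits_iff v x).mpr (Or.inr h))
  omega

/-- in an infinite field one can avoid two sets with at most one element each -/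
theorem sys_exists_avoid [Infinite K] (S T : Set K) (hS : S.Subsingleton) (hT : T.Subsingleton) :
    ∃ κ : K, κ ∉ S ∧ κ ∉ T := by
  have hfin : (S ∪ T).Finite := (hS.finite).union (hT.finite)
  obtain ⟨κ, hκ⟩ := hfin.exists_notMem
  exact ⟨κ, fun h => hκ (Or.inl h), fun h => hκ (Or.inr h)⟩

end general

variable {N : ℕ} {A : ValuationSubring Qb} {Foo F0 : Type} [Field Foo] [Field F0]
  [Algebra (kRes A) Foo] [Algebra (kRes A) F0] {ι : Type} {p : ℕ}
  {G : NodalData N A Foo F0 ι}

/-- **GLUE-O, one node.**  For `m ∈ V_∞ ∩ V_0` without pole over the node `ν`, the reductions of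
`m` are regular at the two branches of `ν` with the same value. -/
theorem glueO_node (H : NodalRvHyp p G) (hp : p.Prime) (hA : A.LiesOverPrime p)
    [Infinite (kRes A)] (m : FLb N) (hmoo : m ∈ G.Voo) (hm0 : m ∈ G.V0) (ν : ι)
    (hm : ∀ P, G.r P = NPt.node ν → 0 ≤ P.ord m) :
    ∃ κ : kRes A,
      G.redOo ⟨m, hmoo⟩ - algebraMap (kRes A) Foo κ ∈ (G.nOo ν).toValuationSubring.nonunits ∧
      G.red0 ⟨m, hm0⟩ - algebraMap (kRes A) F0 κ ∈ (G.n0 ν).toValuationSubring.nonunits := by
  classical
  have hpQ : (p : Qb) ≠ 0 := by exact_mod_cast hp.ne_zero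
  have hpn : (p : Qb) ∈ A.nonunits := hA
  have h1A : (1 : Qb)⁻¹ ∈ A := by rw [inv_one]; exact A.one_mem
  have h11A : ((1 : Qb)⁻¹)⁻¹ ∈ A := by rw [inv_one, inv_one]; exact A.one_mem
  set x : Foo := G.redOo ⟨m, hmoo⟩ with hx
  set y : F0 := G.red0 ⟨m, hm0⟩ with hy
  -- the translates `m + c`
  have hcoo : ∀ c : A, algebraMap Qb (FLb N) (c : Qb) ∈ G.Voo := fun c =>
    (H.const_oo _).mpr c.2
  have hc0 : ∀ c : A, algebraMap Qb (FLb N) (c : Qb) ∈ G.V0 := fun c =>
    (H.const_zero _).mpr c.2
  have huoo : ∀ c : A, m + algebraMap Qb (FLb N) (c : Qb) ∈ G.Voo := fun c =>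
    G.Voo.add_mem hmoo (hcoo c)
  have hu0 : ∀ c : A, m + algebraMap Qb (FLb N) (c : Qb) ∈ G.V0 := fun c =>
    G.V0.add_mem hm0 (hc0 c)
  have hredoo : ∀ c : A, G.redOo ⟨_, huoo c⟩
      = x + algebraMap (kRes A) Foo (IsLocalRing.residue A c) := by
    intro c
    have e : (⟨_, huoo c⟩ : G.Voo) = ⟨m, hmoo⟩ + ⟨_, hcoo c⟩ := rfl
    rw [e, map_add, H.red_const_oo c (hcoo c)]
  have hred0 : ∀ c : A, G.red0 ⟨_, hu0 c⟩
      = y + algebraMap (kRes A) F0 (IsLocalRing.residue A c) := by
    intro c
    have e : (⟨_, hu0 c⟩ : G.V0) = ⟨m, hm0⟩ + ⟨_, hc0 c⟩ := rfl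
    rw [e, map_add, H.red_const_zero c (hc0 c)]
  -- no pole over `ν`
  have hnp : ∀ (c : A) (P : Place Qb (FLb N)), G.r P = NPt.node ν →
      0 ≤ P.ord (m + algebraMap Qb (FLb N) (c : Qb)) := by
    intro c P hP
    by_cases h0 : m + algebraMap Qb (FLb N) (c : Qb) = 0
    · rw [h0, Place.ord_zero]
    · refine Fermat.Agent.H23.ord_add_ge P h0 0 (Or.inr (hm P hP)) (Or.inr ?_)
      rw [Fermat.Agent.H23.ord_algebraMap]
  have hsurj : Function.Surjective (IsLocalRing.residue A) := IsLocalRing.residue_surjective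
  -- Step 1 : regularity of the reductions at the branches of `ν`
  have hreg : x ∈ (G.nOo ν).toValuationSubring ∧ y ∈ (G.n0 ν).toValuationSubring := by
    obtain ⟨κ₁, hκx, hκy⟩ := sys_exists_avoid
      {κ : kRes A | x + algebraMap (kRes A) Foo κ = 0}
      {κ : kRes A | y + algebraMap (kRes A) F0 κ = 0}
      (fun a ha b hb => sys_const_unique_zero x ha hb)
      (fun a ha b hb => sys_const_unique_zero y ha hb)
    obtain ⟨c₁, rfl⟩ := hsurj κ₁
    have h1 : G.redOo ⟨_, huoo c₁⟩ ≠ 0 := by rw [hredoo]; exact hκx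
    have h2 : G.red0 ⟨_, hu0 c₁⟩ ≠ 0 := by rw [hred0]; exact hκy
    have h3 := H.node_le ⟨_, huoo c₁⟩ ⟨_, hu0 c₁⟩ 1 h1 h2
      (by rw [map_one, one_mul]) ν (hnp c₁)
    have ha : 0 ≤ (G.nOo ν).ord (G.redOo ⟨_, huoo c₁⟩) :=
      na_nonneg_of_unit hpn hpQ one_ne_zero h1A h3.1
    have hb : 0 ≤ (G.n0 ν).ord (G.red0 ⟨_, hu0 c₁⟩) :=
      na_nonneg_of_unit hpn hpQ (inv_ne_zero one_ne_zero) h11A h3.2
    rw [hredoo] at ha
    rw [hred0] at hb
    constructor
    · have h4 : x + algebraMap (kRes A) Foo (IsLocalRing.residue A c₁) ∈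
          (G.nOo ν).toValuationSubring := Fermat.Agent.H23.mem_of_ord_nonneg _ ha
      have h5 := (G.nOo ν).toValuationSubring.sub_mem h4
        ((G.nOo ν).algebraMap_mem' (IsLocalRing.residue A c₁))
      rw [add_sub_cancel_right] at h5
      exact h5
    · have h4 : y + algebraMap (kRes A) F0 (IsLocalRing.residue A c₁) ∈
          (G.n0 ν).toValuationSubring := Fermat.Agent.H23.mem_of_ord_nonneg _ hb
      have h5 := (G.n0 ν).toValuationSubring.sub_mem h4
        ((G.n0 ν).algebraMap_mem' (IsLocalRing.residue A c₁))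
      rw [add_sub_cancel_right] at h5
      exact h5
  -- Step 2 : a translate whose reductions are units at the branches of `ν`
  obtain ⟨κ₂, hκx, hκy⟩ := sys_exists_avoid
    {κ : kRes A | x + algebraMap (kRes A) Foo κ ∈ (G.nOo ν).toValuationSubring.nonunits}
    {κ : kRes A | y + algebraMap (kRes A) F0 κ ∈ (G.n0 ν).toValuationSubring.nonunits}
    (fun a ha b hb => sys_const_unique (G.nOo ν) x ha hb)
    (fun a ha b hb => sys_const_unique (G.n0 ν) y ha hb)
  obtain ⟨c₂, rfl⟩ := hsurj κ₂
  have hxmem : x + algebraMap (kRes A) Foo (IsLocalRing.residue A c₂) ∈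
      (G.nOo ν).toValuationSubring :=
    add_mem hreg.1 ((G.nOo ν).algebraMap_mem' _)
  have hymem : y + algebraMap (kRes A) F0 (IsLocalRing.residue A c₂) ∈
      (G.n0 ν).toValuationSubring :=
    add_mem hreg.2 ((G.n0 ν).algebraMap_mem' _)
  obtain ⟨hx0, hxord⟩ := sys_ord_eq_zero_of_unit (G.nOo ν) hxmem hκx
  obtain ⟨hy0, hyord⟩ := sys_ord_eq_zero_of_unit (G.n0 ν) hymem hκy
  have h1 : G.redOo ⟨_, huoo c₂⟩ ≠ 0 := by rw [hredoo]; exact hx0
  have h2 : G.red0 ⟨_, hu0 c₂⟩ ≠ 0 := by rw [hred0]; exact hy0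
  -- Step 3 : no zero over `ν`
  have hnz : ∀ P, G.r P = NPt.node ν → P.ord (m + algebraMap Qb (FLb N) (c₂ : Qb)) = 0 := by
    intro P hP
    have h3 := hnp c₂ P hP
    by_contra hne
    have hpos : 0 < P.ord (m + algebraMap Qb (FLb N) (c₂ : Qb)) := by omega
    have h4 := (H.node_lt ⟨_, huoo c₂⟩ ⟨_, hu0 c₂⟩ 1 h1 h2
      (by rw [map_one, one_mul]) ν (hnp c₂) ⟨P, hP, hpos⟩).1
    rw [hredoo, hxord, zpow_zero, one_mul] at h4
    exact na_unit_not_mem_nonunits (A := A) one_ne_zero h1A h4
  -- Step 4 : gluing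
  obtain ⟨κ, -, hκoo, hκ0⟩ := H.glue _ (huoo c₂) (hu0 c₂) h1 h2 ν hnz
  rw [hredoo] at hκoo
  rw [hred0] at hκ0
  refine ⟨κ - IsLocalRing.residue A c₂, ?_, ?_⟩
  · have e : x - algebraMap (kRes A) Foo (κ - IsLocalRing.residue A c₂)
        = x + algebraMap (kRes A) Foo (IsLocalRing.residue A c₂)
          - algebraMap (kRes A) Foo κ := by
      rw [map_sub]
      ring
    rw [e]
    exact hκoo
  · have e : y - algebraMap (kRes A) F0 (κ - IsLocalRing.residue A c₂)
        = y + algebraMap (kRes A) F0 (IsLocalRing.residue A c₂)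
          - algebraMap (kRes A) F0 κ := by
      rw [map_sub]
      ring
    rw [e]
    exact hκ0

/-- **GLUE-O.**  The reductions of a doubly integral function without pole over the nodes are
glued. -/
theorem glueO (H : NodalRvHyp p G) (hp : p.Prime) (hA : A.LiesOverPrime p)
    [Infinite (kRes A)] (m : nodalO G)
    (hm : ∀ P ν, G.r P = NPt.node ν → 0 ≤ P.ord (m : FLb N)) :
    IsGlued G (redOoO G m) (red0O G m) := by
  intro ν
  exact glueO_node H hp hA (m : FLb N) m.2.1 m.2.2 ν (fun P hP => hm P ν hP)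

/-- **GLUE-O**, under the standing hypotheses of block (G-B). -/
theorem glueO_of_pkg {g : ℕ} (hS : Fermat.Agent.H92.ORD.NodalSetup N p A G g)
    (hPkg : NodalPkg G) (m : nodalO G)
    (hm : ∀ P ν, G.r P = NPt.node ν → 0 ≤ P.ord (m : FLb N)) :
    IsGlued G (redOoO G m) (red0O G m) := by
  haveI := hPkg.algClosed
  haveI : Infinite (kRes A) := IsAlgClosed.instInfinite
  exact glueO hS.rv hS.prime hS.liesOver m hm

end Fermat.Agent.H69.ORD

end
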