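import Fermat.Agent.H69.ORD.NodalSys
import Fermat.Agent.H94.ORD.JacInterfaces

/-!
# P-ORD, row ORD-GB-N1 (N-COORD) (helper69)

`unrCoordN : Fermat.Agent.H94.ORD.UnrCoordN` : every smooth point of the special fibre carries
an unramified coordinate (nodal G2).  Direct consequence of `sys_exists_coord_oo`,
`sys_exists_coord_zero` (`Fermat.Agent.H69.ORD.NodalSys`).
-/

set_option autoImplicit false

noncomputable section

open AlgebraicCurve ModularCurve

namespace Fermat.Agent.H69.ORD

open Fermat.Agent.H18.ORD Fermat.Agent.H72.FF Fermat.Agent.H92.ORD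

/-- **[N-COORD]** every smooth point of the special fibre carries an unramified coordinate. -/
theorem unrCoordN : Fermat.Agent.H94.ORD.UnrCoordN := by
  intro N p A Foo F0 _ _ _ _ ι G g hS hPkg v hv
  have := hPkg.fin
  obtain ⟨gOo, gZ, pkoo, pk0, -⟩ := hPkg.nc g hS.pkgL
  cases v with
  | oo Q => exact sys_exists_coord_oo G hS hPkg.lift pkoo pk0 Q hv
  | zero Q => exact sys_exists_coord_zero G hS hPkg.lift pkoo pk0 Q hv
  | node ν => exact hv.elim

end Fermat.Agent.H69.ORD

end
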