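import Fermat.Agent.H69.ORD.NodalSys
import Fermat.Agent.H72.ORD.NodalBlocks

/-!
# P-ORD, row ORD-GA-SYS (helper69) : the form consumed by helper72's final wiring

`nodalSys_of_fullSetup` : under the FULL standing hypotheses
`Fermat.Agent.H72.ORD.NodalSetup N p A Foo F0 ι G g` there is a nodal Jacobi system in the sense
of helper92 (`Fermat.Agent.H92.ORD.IsNodalJacSystem`).
-/

set_option autoImplicit false
set_option linter.style.haveILetI false

noncomputable section

open AlgebraicCurve ModularCurve

namespace Fermat.Agent.H69.ORD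

open Fermat.Agent.H18.ORD Fermat.Agent.H72.FF

/-- the standing hypotheses of block (G-A) from the full standing hypotheses -/
theorem gaSetup_of_fullSetup {N p : ℕ} {A : ValuationSubring Qb} {Foo F0 : Type} [Field Foo]
    [Field F0] [Algebra (kRes A) Foo] [Algebra (kRes A) F0] {ι : Type}
    {G : NodalData N A Foo F0 ι} {g : ℕ}
    (hS : Fermat.Agent.H72.ORD.NodalSetup N p A Foo F0 ι G g) :
    Fermat.Agent.H92.ORD.NodalSetup N p A G g where
  prime := hS.prime
  liesOver := hS.liesOver
  rv := hS.rv
  gal := hS.gal
  node := hS.nonempty_nodes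
  pkgL := hS.pkgL

/-- **ORD-GA-SYS**, in the form of the final wiring: existence of a nodal Jacobi system under
the full standing hypotheses. -/
theorem nodalSys_of_fullSetup (N p : ℕ) (A : ValuationSubring Qb) (Foo F0 : Type) [Field Foo]
    [Field F0] [Algebra (kRes A) Foo] [Algebra (kRes A) F0] (ι : Type)
    (G : NodalData N A Foo F0 ι) (g : ℕ)
    (hS : Fermat.Agent.H72.ORD.NodalSetup N p A Foo F0 ι G g) :
    ∃ (O : Fin g → Place Qb (FLb N)) (t : Fin g → FLb N),
      Fermat.Agent.H92.ORD.IsNodalJacSystem G g O t := by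
  haveI := hS.finite_nodes
  haveI := hS.algClosed
  haveI : Infinite (kRes A) := IsAlgClosed.instInfinite
  exact exists_nodalJacSystem G (gaSetup_of_fullSetup hS) hS.lift hS.rrOo hS.rrZero
    (le_of_eq hS.genus_eq)

end Fermat.Agent.H69.ORD

end
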