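import Mathlib

/-!
# P-ORD, block B1, [CRT] : the abstract local-global core (helper69; Mathlib only)

`B` a commutative ring, `ρ : B →+* R` a ring homomorphism, `z : R`.

* `crtIdeal ρ z` : the ideal `I_z = {s ∈ B | ρ s * z ∈ range ρ}`; it contains `ker ρ`;
* `crt_core` : if for every maximal ideal `S ⊇ ker ρ` of `B` some `s ∉ S` lies in `I_z`
  ("`z` is locally liftable at `S`"), then `z ∈ range ρ`;
* `crt_core_pair` : the same for a pair of homomorphisms `ρ₁ : B →+* R₁`, `ρ₂ : B →+* R₂`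
  (the two reductions) and a pair `(x, y)`;
* `crt_core_pair_split` : for a pair, local liftability has to be checked
  - on the first component only at the maximal ideals `S ⊇ ker ρ₁`, `S ⊉ ker ρ₂`
    (smooth points of the first component),
  - on the second component only at the maximal ideals `S ⊇ ker ρ₂`, `S ⊉ ker ρ₁`,
  - as a pair at the maximal ideals containing both kernels (the nodes).
  No noetherian hypothesis.
-/

set_option autoImplicit false

namespace Fermat.Agent.H69.ORD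

variable {B R : Type*} [CommRing B] [CommRing R]

/-- the conductor ideal `I_z = {s | ρ s * z ∈ range ρ}` of an element `z` of the target -/
def crtIdeal (ρ : B →+* R) (z : R) : Ideal B where
  carrier := {s | ∃ f : B, ρ f = ρ s * z}
  add_mem' := by
    rintro a b ⟨f, hf⟩ ⟨g, hg⟩
    exact ⟨f + g, by rw [map_add, map_add, hf, hg, add_mul]⟩
  zero_mem' := ⟨0, by rw [map_zero, zero_mul]⟩
  smul_mem' := by
    rintro c a ⟨f, hf⟩
    exact ⟨c * f, by rw [smul_eq_mul, map_mul, map_mul, hf, mul_assoc]⟩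

theorem mem_crtIdeal {ρ : B →+* R} {z : R} {s : B} :
    s ∈ crtIdeal ρ z ↔ ∃ f : B, ρ f = ρ s * z := Iff.rfl

/-- the kernel of `ρ` is contained in every conductor ideal -/
theorem ker_le_crtIdeal (ρ : B →+* R) (z : R) : RingHom.ker ρ ≤ crtIdeal ρ z := by
  intro s hs
  rw [RingHom.mem_ker] at hs
  exact ⟨0, by rw [map_zero, hs, zero_mul]⟩

/-- `z` is in the range of `ρ` iff its conductor ideal is the unit ideal -/
theorem crtIdeal_eq_top_iff (ρ : B →+* R) (z : R) :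
    crtIdeal ρ z = ⊤ ↔ ∃ f : B, ρ f = z := by
  constructor
  · intro h
    have h1 : (1 : B) ∈ crtIdeal ρ z := by rw [h]; exact Submodule.mem_top
    obtain ⟨f, hf⟩ := h1
    exact ⟨f, by rw [hf, map_one, one_mul]⟩
  · rintro ⟨f, hf⟩
    rw [Ideal.eq_top_iff_one]
    exact ⟨f, by rw [hf, map_one, one_mul]⟩

/-- **[CRT], abstract local-global core.**  An element which is locally liftable at every
maximal ideal containing the kernel is liftable. -/
theorem crt_core (ρ : B →+* R) (z : R)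
    (hloc : ∀ S : Ideal B, S.IsMaximal → RingHom.ker ρ ≤ S →
      ∃ s : B, s ∉ S ∧ ∃ f : B, ρ f = ρ s * z) :
    ∃ f : B, ρ f = z := by
  rw [← crtIdeal_eq_top_iff]
  by_contra hne
  obtain ⟨S, hS, hle⟩ := Ideal.exists_le_maximal _ hne
  obtain ⟨s, hsS, hs⟩ := hloc S hS (le_trans (ker_le_crtIdeal ρ z) hle)
  exact hsS (hle hs)

section pair

variable {R₁ R₂ : Type*} [CommRing R₁] [CommRing R₂]

/-- **[CRT] for a pair of reductions.** -/
theorem crt_core_pair (ρ₁ : B →+* R₁) (ρ₂ : B →+* R₂) (x : R₁) (y : R₂)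
    (hloc : ∀ S : Ideal B, S.IsMaximal → RingHom.ker ρ₁ ⊓ RingHom.ker ρ₂ ≤ S →
      ∃ s : B, s ∉ S ∧ ∃ f : B, ρ₁ f = ρ₁ s * x ∧ ρ₂ f = ρ₂ s * y) :
    ∃ f : B, ρ₁ f = x ∧ ρ₂ f = y := by
  have h := crt_core (ρ₁.prod ρ₂) (x, y) (fun S hS hker => by
    have hker' : RingHom.ker ρ₁ ⊓ RingHom.ker ρ₂ ≤ S := by
      intro s hs
      apply hker
      rw [RingHom.mem_ker, RingHom.prod_apply]
      exact Prod.ext (RingHom.mem_ker.mp hs.1) (RingHom.mem_ker.mp hs.2)
    obtain ⟨s, hsS, f, h1, h2⟩ := hloc S hS hker'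
    refine ⟨s, hsS, f, ?_⟩
    rw [RingHom.prod_apply, RingHom.prod_apply]
    exact Prod.ext h1 h2)
  obtain ⟨f, hf⟩ := h
  rw [RingHom.prod_apply] at hf
  exact ⟨f, congrArg Prod.fst hf, congrArg Prod.snd hf⟩

/-- **[CRT] for a pair, split form.**  Local liftability is needed on one component at the
maximal ideals lying on that component only, and as a pair at the maximal ideals lying on both
components. -/
theorem crt_core_pair_split (ρ₁ : B →+* R₁) (ρ₂ : B →+* R₂) (x : R₁) (y : R₂)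
    (h₁ : ∀ S : Ideal B, S.IsMaximal → RingHom.ker ρ₁ ≤ S → ¬ RingHom.ker ρ₂ ≤ S →
      ∃ s : B, s ∉ S ∧ ∃ f : B, ρ₁ f = ρ₁ s * x)
    (h₂ : ∀ S : Ideal B, S.IsMaximal → RingHom.ker ρ₂ ≤ S → ¬ RingHom.ker ρ₁ ≤ S →
      ∃ s : B, s ∉ S ∧ ∃ f : B, ρ₂ f = ρ₂ s * y)
    (h₁₂ : ∀ S : Ideal B, S.IsMaximal → RingHom.ker ρ₁ ≤ S → RingHom.ker ρ₂ ≤ S →
      ∃ s : B, s ∉ S ∧ ∃ f : B, ρ₁ f = ρ₁ s * x ∧ ρ₂ f = ρ₂ s * y) :
    ∃ f : B, ρ₁ f = x ∧ ρ₂ f = y := by
  refine crt_core_pair ρ₁ ρ₂ x y (fun S hS hker => ?_)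
  have hprime : S.IsPrime := hS.isPrime
  by_cases c₁ : RingHom.ker ρ₁ ≤ S
  · by_cases c₂ : RingHom.ker ρ₂ ≤ S
    · exact h₁₂ S hS c₁ c₂
    · -- a smooth point of the first component
      obtain ⟨e, he, heS⟩ := SetLike.not_le_iff_exists.mp c₂
      rw [RingHom.mem_ker] at he
      obtain ⟨s, hsS, f, hf⟩ := h₁ S hS c₁ c₂
      refine ⟨e * s, fun h => ?_, e * f, ?_, ?_⟩
      · rcases hprime.mem_or_mem h with h' | h'
        · exact heS h'
        · exact hsS h'
      · rw [map_mul, map_mul, hf, mul_assoc]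
      · rw [map_mul, map_mul, he, zero_mul, zero_mul, zero_mul]
  · by_cases c₂ : RingHom.ker ρ₂ ≤ S
    · -- a smooth point of the second component
      obtain ⟨e, he, heS⟩ := SetLike.not_le_iff_exists.mp c₁
      rw [RingHom.mem_ker] at he
      obtain ⟨s, hsS, f, hf⟩ := h₂ S hS c₂ c₁
      refine ⟨e * s, fun h => ?_, e * f, ?_, ?_⟩
      · rcases hprime.mem_or_mem h with h' | h'
        · exact heS h'
        · exact hsS h'
      · rw [map_mul, map_mul, he, zero_mul, zero_mul, zero_mul]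
      · rw [map_mul, map_mul, hf, mul_assoc]
    · -- impossible: a prime ideal containing `ker ρ₁ ⊓ ker ρ₂` contains one of them
      exfalso
      obtain ⟨e₁, he₁, he₁S⟩ := SetLike.not_le_iff_exists.mp c₁
      obtain ⟨e₂, he₂, he₂S⟩ := SetLike.not_le_iff_exists.mp c₂
      have hmem : e₁ * e₂ ∈ RingHom.ker ρ₁ ⊓ RingHom.ker ρ₂ :=
        ⟨Ideal.mul_mem_right _ _ he₁, Ideal.mul_mem_left _ _ he₂⟩
      rcases hprime.mem_or_mem (hker hmem) with h' | h'
      · exact he₁S h'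
      · exact he₂S h'

/-- A maximal (prime) ideal containing the intersection of two kernels contains one of them. -/
theorem ker_le_or_ker_le_of_inf_le (ρ₁ : B →+* R₁) (ρ₂ : B →+* R₂) (S : Ideal B)
    [hS : S.IsPrime] (hker : RingHom.ker ρ₁ ⊓ RingHom.ker ρ₂ ≤ S) :
    RingHom.ker ρ₁ ≤ S ∨ RingHom.ker ρ₂ ≤ S := by
  by_contra hcon
  rw [not_or] at hcon
  obtain ⟨e₁, he₁, he₁S⟩ := SetLike.not_le_iff_exists.mp hcon.1
  obtain ⟨e₂, he₂, he₂S⟩ := SetLike.not_le_iff_exists.mp hcon.2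
  have hmem : e₁ * e₂ ∈ RingHom.ker ρ₁ ⊓ RingHom.ker ρ₂ :=
    ⟨Ideal.mul_mem_right _ _ he₁, Ideal.mul_mem_left _ _ he₂⟩
  rcases hS.mem_or_mem (hker hmem) with h' | h'
  · exact he₁S h'
  · exact he₂S h'

end pair

end Fermat.Agent.H69.ORD
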