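import Fermat.Agent.H69.ORD.NodalSysRR
import Fermat.Agent.H92.ORD.NodalJacDefs
import Fermat.Agent.H18.ORD.NodalLiftDefs
import Fermat.Agent.H87.ORD.NodalBaseExists

/-!
# P-ORD, row ORD-GA-SYS (helper69) : existence of a nodal Jacobi system

`exists_nodalJacSystem` : under `NodalSetup N p A G g`, the lifting package `NodalLift G`,
`RRHyp` on both components of the special fibre, finitely many nodes and the node count
`[NC] : g + 1 ≤ g_∞ + g_0 + #ι`, there are `g` inertia-fixed base points `O i` over distinct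
smooth points of the special fibre, non-special in the sense (NS1), (NS2), each with an
inertia-fixed coordinate `t i` : `IsNodalJacSystem G g O t`.

Steps:
* `sys_exists_glued_oo`, `sys_exists_glued_zero` : glued pairs `(x, y) ∈ L(n Q∞) × L(n Q0)` with
  a simple zero at a given smooth point of one component (simple zero on one component,
  interpolation of the values at the nodes on the other one);
* `sys_exists_coord_oo`, `sys_exists_coord_zero` : an unramified coordinate at every smooth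
  point: lift the glued pair (`NodalLift.lift`), take the zero of the lift in the disc
  (conservation law); it is unique, hence fixed by the inertia group (`NodalGalHyp.inertia_r`);
* `exists_nodalJacSystem` : helper87's `exists_nodalBase`, dropping superfluous points.
-/

set_option autoImplicit false
set_option linter.unusedSectionVars false
set_option linter.style.haveILetI false

noncomputable section

open AlgebraicCurve ModularCurve

namespace Fermat.Agent.H69.ORD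

open Fermat.Agent.H18.ORD Fermat.Agent.H72.FF Fermat.Agent.H27.ESD Fermat.Agent.H92.ORD
  Fermat.Agent.H58

variable {N : ℕ} {A : ValuationSubring Qb} {Foo F0 : Type} [Field Foo] [Field F0]
  [Algebra (kRes A) Foo] [Algebra (kRes A) F0] {ι : Type}

/-! ### Glued pairs on the special fibre -/

/-- A glued pair with a simple zero at a smooth point `Q ≠ Q∞` of `C_∞`. -/
theorem sys_exists_glued_oo [Finite ι] (G : NodalData N A Foo F0 ι)
    (hn0 : Function.Injective G.n0) {goo g0 : ℕ}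
    (hkoo : RiemannPackage (kRes A) Foo goo) (hk0 : RiemannPackage (kRes A) F0 g0)
    (Qoo Q : Place (kRes A) Foo) (Q0 : Place (kRes A) F0)
    (hQoo : Qoo ∉ Set.range G.nOo) (hQ0 : Q0 ∉ Set.range G.n0) (hQ : Q ≠ Qoo) :
    ∃ n₃ : ℕ, ∀ n : ℕ, n₃ ≤ n →
      ∃ x ∈ riemannRochSpace (Finsupp.single Qoo (n : ℤ)),
      ∃ y ∈ riemannRochSpace (Finsupp.single Q0 (n : ℤ)),
        IsGlued G x y ∧ x ≠ 0 ∧ Q.ord x = 1 := by
  classical
  haveI : Fintype ι := Fintype.ofFinite ι
  have hS0 : Q0 ∉ Finset.univ.image G.n0 := by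
    intro h
    obtain ⟨ν, -, hν⟩ := Finset.mem_image.mp h
    exact hQ0 ⟨ν, hν⟩
  obtain ⟨n₁, h₁⟩ := sys_exists_simple_zero hkoo Qoo Q hQ
  obtain ⟨n₂, h₂⟩ := sys_exists_interp hk0 Q0 (Finset.univ.image G.n0) hS0
  refine ⟨max n₁ n₂, fun n hn => ?_⟩
  obtain ⟨x, hx, hx0, hxQ⟩ := h₁ n (le_trans (le_max_left _ _) hn)
  have hval : ∀ ν, ∃ κ : kRes A,
      x - algebraMap (kRes A) Foo κ ∈ (G.nOo ν).toValuationSubring.nonunits := fun ν =>
    sys_exists_value (G.nOo ν) (hkoo.deg_one _)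
      (sys_regular_of_mem Qoo (G.nOo ν) n hx (fun h => hQoo ⟨ν, h⟩))
  choose κ hκ using hval
  have hex : ∃ κ' : Place (kRes A) F0 → kRes A, ∀ ν, κ' (G.n0 ν) = κ ν := by
    refine ⟨fun v => if h : ∃ ν, G.n0 ν = v then κ h.choose else 0, fun ν => ?_⟩
    have h : ∃ ν', G.n0 ν' = G.n0 ν := ⟨ν, rfl⟩
    show (if h : ∃ ν', G.n0 ν' = G.n0 ν then κ h.choose else 0) = κ ν
    rw [dif_pos h, hn0 h.choose_spec]
  obtain ⟨κ', hκ'⟩ := hex
  obtain ⟨y, hy, hyS⟩ := h₂ n (le_trans (le_max_right _ _) hn) κ'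
  refine ⟨x, hx, y, hy, fun ν => ⟨κ ν, hκ ν, ?_⟩, hx0, hxQ⟩
  have h := hyS (G.n0 ν) (Finset.mem_image.mpr ⟨ν, Finset.mem_univ _, rfl⟩)
  rw [hκ'] at h
  exact h

/-- A glued pair with a simple zero at a smooth point `Q ≠ Q0` of `C_0`. -/
theorem sys_exists_glued_zero [Finite ι] (G : NodalData N A Foo F0 ι)
    (hnOo : Function.Injective G.nOo) {goo g0 : ℕ}
    (hkoo : RiemannPackage (kRes A) Foo goo) (hk0 : RiemannPackage (kRes A) F0 g0)
    (Qoo : Place (kRes A) Foo) (Q0 Q : Place (kRes A) F0)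
    (hQoo : Qoo ∉ Set.range G.nOo) (hQ0 : Q0 ∉ Set.range G.n0) (hQ : Q ≠ Q0) :
    ∃ n₃ : ℕ, ∀ n : ℕ, n₃ ≤ n →
      ∃ x ∈ riemannRochSpace (Finsupp.single Qoo (n : ℤ)),
      ∃ y ∈ riemannRochSpace (Finsupp.single Q0 (n : ℤ)),
        IsGlued G x y ∧ y ≠ 0 ∧ Q.ord y = 1 := by
  classical
  haveI : Fintype ι := Fintype.ofFinite ι
  have hSoo : Qoo ∉ Finset.univ.image G.nOo := by
    intro h
    obtain ⟨ν, -, hν⟩ := Finset.mem_image.mp h
    exact hQoo ⟨ν, hν⟩
  obtain ⟨n₁, h₁⟩ := sys_exists_simple_zero hk0 Q0 Q hQ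
  obtain ⟨n₂, h₂⟩ := sys_exists_interp hkoo Qoo (Finset.univ.image G.nOo) hSoo
  refine ⟨max n₁ n₂, fun n hn => ?_⟩
  obtain ⟨y, hy, hy0, hyQ⟩ := h₁ n (le_trans (le_max_left _ _) hn)
  have hval : ∀ ν, ∃ κ : kRes A,
      y - algebraMap (kRes A) F0 κ ∈ (G.n0 ν).toValuationSubring.nonunits := fun ν =>
    sys_exists_value (G.n0 ν) (hk0.deg_one _)
      (sys_regular_of_mem Q0 (G.n0 ν) n hy (fun h => hQ0 ⟨ν, h⟩))
  choose κ hκ using hval
  have hex : ∃ κ' : Place (kRes A) Foo → kRes A, ∀ ν, κ' (G.nOo ν) = κ ν := by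
    refine ⟨fun v => if h : ∃ ν, G.nOo ν = v then κ h.choose else 0, fun ν => ?_⟩
    have h : ∃ ν', G.nOo ν' = G.nOo ν := ⟨ν, rfl⟩
    show (if h : ∃ ν', G.nOo ν' = G.nOo ν then κ h.choose else 0) = κ ν
    rw [dif_pos h, hnOo h.choose_spec]
  obtain ⟨κ', hκ'⟩ := hex
  obtain ⟨x, hx, hxS⟩ := h₂ n (le_trans (le_max_right _ _) hn) κ'
  refine ⟨x, hx, y, hy, fun ν => ⟨κ ν, ?_, hκ ν⟩, hy0, hyQ⟩
  have h := hxS (G.nOo ν) (Finset.mem_image.mpr ⟨ν, Finset.mem_univ _, rfl⟩)
  rw [hκ'] at h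
  exact h

/-! ### Smooth base points -/

/-- a smooth point of `C_∞` different from a given point -/
theorem sys_exists_smooth_oo [Finite ι] (G : NodalData N A Foo F0 ι) {goo : ℕ}
    (hkoo : RiemannPackage (kRes A) Foo goo) (Q : Place (kRes A) Foo) :
    ∃ Qoo : Place (kRes A) Foo, Qoo ∉ Set.range G.nOo ∧ Qoo ≠ Q := by
  classical
  haveI : Fintype ι := Fintype.ofFinite ι
  haveI := hkoo.infinite_places
  obtain ⟨Qoo, hQoo⟩ := Infinite.exists_notMem_finset (insert Q (Finset.univ.image G.nOo))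
  refine ⟨Qoo, ?_, ?_⟩
  · rintro ⟨ν, hν⟩
    exact hQoo (Finset.mem_insert_of_mem (Finset.mem_image.mpr ⟨ν, Finset.mem_univ _, hν⟩))
  · rintro rfl
    exact hQoo (Finset.mem_insert_self _ _)

/-- a smooth point of `C_0` different from a given point -/
theorem sys_exists_smooth_zero [Finite ι] (G : NodalData N A Foo F0 ι) {g0 : ℕ}
    (hk0 : RiemannPackage (kRes A) F0 g0) (Q : Place (kRes A) F0) :
    ∃ Q0 : Place (kRes A) F0, Q0 ∉ Set.range G.n0 ∧ Q0 ≠ Q := by
  classical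
  haveI : Fintype ι := Fintype.ofFinite ι
  haveI := hk0.infinite_places
  obtain ⟨Q0, hQ0⟩ := Infinite.exists_notMem_finset (insert Q (Finset.univ.image G.n0))
  refine ⟨Q0, ?_, ?_⟩
  · rintro ⟨ν, hν⟩
    exact hQ0 (Finset.mem_insert_of_mem (Finset.mem_image.mpr ⟨ν, Finset.mem_univ _, hν⟩))
  · rintro rfl
    exact hQ0 (Finset.mem_insert_self _ _)

/-- a point of the fibre over `x` with positive multiplicity, from a positive total
multiplicity -/
theorem sys_exists_pos_of_mapDomain {α β : Type*} (f : α → β) (D : α →₀ ℤ) (b : β)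
    (hD : ∀ a, f a = b → 0 ≤ D a) (h : Finsupp.mapDomain f D b = 1) :
    ∃ a, f a = b ∧ 1 ≤ D a := by
  classical
  have hmem : b ∈ (Finsupp.mapDomain f D).support := by
    rw [Finsupp.mem_support_iff, h]
    exact one_ne_zero
  have h1 := Finsupp.mapDomain_support hmem
  rw [Finset.mem_image] at h1
  obtain ⟨a, ha, hab⟩ := h1
  refine ⟨a, hab, ?_⟩
  have h3 : D a ≠ 0 := Finsupp.mem_support_iff.mp ha
  have h4 := hD a hab
  omega

/-! ### Unramified coordinates at the smooth points -/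

/-- **Nodal G2 on `C_∞`.**  Every smooth point of `C_∞` carries an unramified coordinate. -/
theorem sys_exists_coord_oo {p g : ℕ} [Finite ι] (G : NodalData N A Foo F0 ι)
    (hS : NodalSetup N p A G g) (hL : NodalLift G) {goo g0 : ℕ}
    (hkoo : RiemannPackage (kRes A) Foo goo) (hk0 : RiemannPackage (kRes A) F0 g0)
    (Q : Place (kRes A) Foo) (hQ : Q ∉ Set.range G.nOo) :
    ∃ (P : Place Qb (FLb N)) (t : FLb N), G.r P = NPt.oo Q ∧ IsNodalUnrCoord G P t := by
  classical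
  have H := hS.rv
  obtain ⟨Qoo, hQoo, hQne⟩ := sys_exists_smooth_oo G hkoo Q
  obtain ⟨Q0, hQ0, -⟩ := sys_exists_smooth_zero G hk0 (G.n0 (Classical.choice hS.node))
  obtain ⟨Poo, hPoo, hPooI⟩ := hL.pt_oo Qoo hQoo
  obtain ⟨P0, hP0, hP0I⟩ := hL.pt_zero Q0 hQ0
  obtain ⟨n₀, hn₀⟩ := hL.lift Poo P0 Qoo Q0 hPoo hP0 hPooI hP0I
  obtain ⟨n₃, hn₃⟩ := sys_exists_glued_oo G H.n0_inj hkoo hk0 Qoo Q Q0 hQoo hQ0 hQne.symm
  obtain ⟨x, hx, y, hy, hglue, hx0, hxQ⟩ := hn₃ (max n₀ n₃) (le_max_right _ _)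
  obtain ⟨u, hu, hu0, huI, huL, hredx, -⟩ := hn₀ (max n₀ n₃) (le_max_left _ _) x hx y hy hglue
  have C := H.compOo hS.pkgL.principal
  have hured0 : G.redOo ⟨u, hu⟩ ≠ 0 := by rw [hredx]; exact hx0
  have hsimple : Q.ord (G.redOo ⟨u, hu⟩) = 1 := by rw [hredx]; exact hxQ
  have hune : u ≠ 0 := nv_coe_ne_zero (u := (⟨u, hu⟩ : G.Voo)) hured0
  -- no pole on the disc
  have hnp : ∀ P1, G.r P1 = NPt.oo Q → 0 ≤ P1.ord u := by
    intro P1 hP1
    have h1 : P1 ≠ Poo := by
      rintro rfl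
      rw [hPoo] at hP1
      exact hQne (NPt.oo.inj hP1)
    have h2 : P1 ≠ P0 := by
      rintro rfl
      rw [hP0] at hP1
      cases hP1
    rcases (mem_riemannRochSpace_iff.mp huL) P1 with h | h
    · exact absurd h hune
    · rw [Finsupp.add_apply, Finsupp.single_apply, Finsupp.single_apply,
        if_neg (Ne.symm h1), if_neg (Ne.symm h2)] at h
      omega
  -- the zero in the disc
  obtain ⟨D, hD⟩ := C.hdiv u hune
  have hmap := C.cons ⟨u, hu⟩ hured0 D hD Q hQ
  rw [hsimple] at hmap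
  obtain ⟨P, hPQ, hP1⟩ := sys_exists_pos_of_mapDomain G.r D (NPt.oo Q)
    (fun a ha => by rw [hD]; exact hnp a ha) hmap
  rw [hD] at hP1
  obtain ⟨hPord, hPuniq⟩ := C.ord_eq_of_coord Q hQ P hPQ ⟨u, hu⟩ hP1 hsimple hnp
  -- the zero is fixed by the inertia group
  have hPI : IsUnrPlace A N P := by
    intro σ hσ
    by_contra hcon
    have hr : G.r (galF N σ • P) = NPt.oo Q := (hS.gal.inertia_r σ hσ P).trans hPQ
    have h0 := hPuniq (galF N σ • P) hr hcon
    have h1 : (galF N σ • P).ord (galF N σ • u) = P.ord u :=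
      SemilinearAut.ord_smul (galF N σ) P u
    rw [huI σ hσ] at h1
    have h2 : (galF N σ • P).ord u = 0 := h0
    have h3 : P.ord u = 1 := hPord
    omega
  refine ⟨P, u, hPQ, ?_⟩
  exact
    { smooth := fun ν h => by rw [hPQ] at h; cases h
      unrP := hPI
      unrT := huI
      zero := hP1
      nopole := fun P1 hP1 => hnp P1 (hP1.trans hPQ)
      simple_oo := fun Q' hQ' => by
        rw [hPQ] at hQ'
        obtain rfl := NPt.oo.inj hQ'
        exact ⟨hu, hsimple⟩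
      simple_zero := fun Q' hQ' => by rw [hPQ] at hQ'; cases hQ' }

/-- **Nodal G2 on `C_0`.**  Every smooth point of `C_0` carries an unramified coordinate. -/
theorem sys_exists_coord_zero {p g : ℕ} [Finite ι] (G : NodalData N A Foo F0 ι)
    (hS : NodalSetup N p A G g) (hL : NodalLift G) {goo g0 : ℕ}
    (hkoo : RiemannPackage (kRes A) Foo goo) (hk0 : RiemannPackage (kRes A) F0 g0)
    (Q : Place (kRes A) F0) (hQ : Q ∉ Set.range G.n0) :
    ∃ (P : Place Qb (FLb N)) (t : FLb N), G.r P = NPt.zero Q ∧ IsNodalUnrCoord G P t := by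
  classical
  have H := hS.rv
  obtain ⟨Q0, hQ0, hQne⟩ := sys_exists_smooth_zero G hk0 Q
  obtain ⟨Qoo, hQoo, -⟩ := sys_exists_smooth_oo G hkoo (G.nOo (Classical.choice hS.node))
  obtain ⟨Poo, hPoo, hPooI⟩ := hL.pt_oo Qoo hQoo
  obtain ⟨P0, hP0, hP0I⟩ := hL.pt_zero Q0 hQ0
  obtain ⟨n₀, hn₀⟩ := hL.lift Poo P0 Qoo Q0 hPoo hP0 hPooI hP0I
  obtain ⟨n₃, hn₃⟩ := sys_exists_glued_zero G H.nOo_inj hkoo hk0 Qoo Q0 Q hQoo hQ0 hQne.symm
  obtain ⟨x, hx, y, hy, hglue, hy0, hyQ⟩ := hn₃ (max n₀ n₃) (le_max_right _ _)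
  obtain ⟨u, hu, hu0, huI, huL, -, hredy⟩ := hn₀ (max n₀ n₃) (le_max_left _ _) x hx y hy hglue
  have C := H.compZero hS.pkgL.principal
  have hured0 : G.red0 ⟨u, hu0⟩ ≠ 0 := by rw [hredy]; exact hy0
  have hsimple : Q.ord (G.red0 ⟨u, hu0⟩) = 1 := by rw [hredy]; exact hyQ
  have hune : u ≠ 0 := nv_coe_ne_zero (u := (⟨u, hu0⟩ : G.V0)) hured0
  -- no pole on the disc
  have hnp : ∀ P1, G.r P1 = NPt.zero Q → 0 ≤ P1.ord u := by
    intro P1 hP1
    have h1 : P1 ≠ Poo := by
      rintro rfl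
      rw [hPoo] at hP1
      cases hP1
    have h2 : P1 ≠ P0 := by
      rintro rfl
      rw [hP0] at hP1
      exact hQne (NPt.zero.inj hP1)
    rcases (mem_riemannRochSpace_iff.mp huL) P1 with h | h
    · exact absurd h hune
    · rw [Finsupp.add_apply, Finsupp.single_apply, Finsupp.single_apply,
        if_neg (Ne.symm h1), if_neg (Ne.symm h2)] at h
      omega
  -- the zero in the disc
  obtain ⟨D, hD⟩ := C.hdiv u hune
  have hmap := C.cons ⟨u, hu0⟩ hured0 D hD Q hQ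
  rw [hsimple] at hmap
  obtain ⟨P, hPQ, hP1⟩ := sys_exists_pos_of_mapDomain G.r D (NPt.zero Q)
    (fun a ha => by rw [hD]; exact hnp a ha) hmap
  rw [hD] at hP1
  obtain ⟨hPord, hPuniq⟩ := C.ord_eq_of_coord Q hQ P hPQ ⟨u, hu0⟩ hP1 hsimple hnp
  -- the zero is fixed by the inertia group
  have hPI : IsUnrPlace A N P := by
    intro σ hσ
    by_contra hcon
    have hr : G.r (galF N σ • P) = NPt.zero Q := (hS.gal.inertia_r σ hσ P).trans hPQ
    have h0 := hPuniq (galF N σ • P) hr hcon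
    have h1 : (galF N σ • P).ord (galF N σ • u) = P.ord u :=
      SemilinearAut.ord_smul (galF N σ) P u
    rw [huI σ hσ] at h1
    have h2 : (galF N σ • P).ord u = 0 := h0
    have h3 : P.ord u = 1 := hPord
    omega
  refine ⟨P, u, hPQ, ?_⟩
  exact
    { smooth := fun ν h => by rw [hPQ] at h; cases h
      unrP := hPI
      unrT := huI
      zero := hP1
      nopole := fun P1 hP1 => hnp P1 (hP1.trans hPQ)
      simple_oo := fun Q' hQ' => by rw [hPQ] at hQ'; cases hQ'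
      simple_zero := fun Q' hQ' => by
        rw [hPQ] at hQ'
        obtain rfl := NPt.zero.inj hQ'
        exact ⟨hu0, hsimple⟩ }

/-! ### The system -/

/-- `single v 1 ≥ 0` -/
theorem sys_single_nonneg {α : Type*} (a : α) : (0 : α →₀ ℤ) ≤ Finsupp.single a 1 := by
  classical
  rw [Finsupp.le_def]
  intro v
  rw [Finsupp.single_apply]
  split_ifs <;> simp

/-- smaller nonnegative base divisors are still non-special -/
theorem sys_nodalBase_of_le (G : NodalData N A Foo F0 ι)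
    {Boo Boo' : Divisor (kRes A) Foo} {B0 B0' : Divisor (kRes A) F0}
    (hB : NodalBase G Boo B0) (h1 : 0 ≤ Boo') (h2 : Boo' ≤ Boo) (h3 : 0 ≤ B0')
    (h4 : B0' ≤ B0) : NodalBase G Boo' B0' where
  nonneg_oo Q := by
    have := Finsupp.le_def.mp h1 Q
    simpa using this
  nonneg_zero Q := by
    have := Finsupp.le_def.mp h3 Q
    simpa using this
  node_oo ν := by
    have h5 := Finsupp.le_def.mp h2 (G.nOo ν)
    rw [hB.node_oo] at h5
    have h6 : (0 : ℤ) ≤ Boo' (G.nOo ν) := by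
      have := Finsupp.le_def.mp h1 (G.nOo ν)
      simpa using this
    omega
  node_zero ν := by
    have h5 := Finsupp.le_def.mp h4 (G.n0 ν)
    rw [hB.node_zero] at h5
    have h6 : (0 : ℤ) ≤ B0' (G.n0 ν) := by
      have := Finsupp.le_def.mp h3 (G.n0 ν)
      simpa using this
    omega
  ns1 x hx := hB.ns1 x (rr_space_mono h4 hx)
  ns2 x hx hv := hB.ns2 x (rr_space_mono h2 hx) hv

/-- a sum over an embedding of a nonnegative family is at most the full sum -/
theorem sys_sum_embedding_le {α β M : Type*} [Fintype α] [Fintype β] [AddCommMonoid M]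
    [PartialOrder M] [IsOrderedAddMonoid M] (e : α ↪ β) (f : β → M) (hf : ∀ x, 0 ≤ f x) :
    ∑ i, f (e i) ≤ ∑ x, f x := by
  classical
  have h2 : ∑ i, f (e i) = ∑ x ∈ Finset.univ.map e, f x := (Finset.sum_map _ e f).symm
  rw [h2]
  exact Finset.sum_le_sum_of_subset_of_nonneg (Finset.subset_univ _) (fun x _ _ => hf x)

/-- **ORD-GA-SYS : existence of a nodal Jacobi system.** -/
theorem exists_nodalJacSystem {p g : ℕ} [Finite ι] (G : NodalData N A Foo F0 ι)
    (hS : NodalSetup N p A G g) (hL : NodalLift G) [Infinite (kRes A)]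
    (hoo : RRHyp (kRes A) Foo) (h0 : RRHyp (kRes A) F0)
    (hNC : g + 1 ≤ genusFF (kRes A) Foo + genusFF (kRes A) F0 + Nat.card ι) :
    ∃ (O : Fin g → Place Qb (FLb N)) (t : Fin g → FLb N), IsNodalJacSystem G g O t := by
  classical
  haveI := hS.node
  have H := hS.rv
  have pkoo := Fermat.Agent.H27.ESD.riemannPackage_of_rrHyp hoo
  have pk0 := Fermat.Agent.H27.ESD.riemannPackage_of_rrHyp h0
  obtain ⟨Too, T0, hB, hcoo, hc0, -, -, hTooN, hT0N⟩ :=
    Fermat.Agent.H87.ORD.exists_nodalBase G hoo h0 ∅ ∅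
  have hcard : (Set.range G.nOo).ncard = Nat.card ι := by
    rw [← Set.image_univ, Set.ncard_image_of_injective _ H.nOo_inj, Set.ncard_univ]
  have hle : g ≤ Fintype.card (↥Too ⊕ ↥T0) := by
    rw [Fintype.card_sum, Fintype.card_coe, Fintype.card_coe]
    omega
  obtain ⟨e⟩ : Nonempty (Fin g ↪ ↥Too ⊕ ↥T0) :=
    Function.Embedding.nonempty_of_card_le (by rw [Fintype.card_fin]; exact hle)
  have hcO : ∀ Q : ↥Too, ∃ (P : Place Qb (FLb N)) (t : FLb N),
      G.r P = NPt.oo Q.1 ∧ IsNodalUnrCoord G P t := fun Q =>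
    sys_exists_coord_oo G hS hL pkoo pk0 Q.1 (by
      rintro ⟨ν, hν⟩
      exact hTooN ν (hν ▸ Q.2))
  have hcZ : ∀ Q : ↥T0, ∃ (P : Place Qb (FLb N)) (t : FLb N),
      G.r P = NPt.zero Q.1 ∧ IsNodalUnrCoord G P t := fun Q =>
    sys_exists_coord_zero G hS hL pkoo pk0 Q.1 (by
      rintro ⟨ν, hν⟩
      exact hT0N ν (hν ▸ Q.2))
  choose Poo too hPoo htoo using hcO
  choose P0 t0 hP0 ht0 using hcZ
  have hr : ∀ i, G.r (Sum.elim Poo P0 (e i))
      = Sum.elim (fun Q : ↥Too => NPt.oo Q.1) (fun Q : ↥T0 => NPt.zero Q.1) (e i) := by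
    intro i
    cases e i with
    | inl Q => exact hPoo Q
    | inr Q => exact hP0 Q
  have hptinj : Function.Injective
      (Sum.elim (fun Q : ↥Too => (NPt.oo Q.1 : NPt (Place (kRes A) Foo) (Place (kRes A) F0) ι))
        (fun Q : ↥T0 => NPt.zero Q.1)) := by
    rintro (a | a) (b | b) h
    · exact congrArg Sum.inl (Subtype.ext (NPt.oo.inj h))
    · cases h
    · cases h
    · exact congrArg Sum.inr (Subtype.ext (NPt.zero.inj h))
  -- the base divisors
  have hbOo : baseOo G (fun i => Sum.elim Poo P0 (e i))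
      = ∑ i, Sum.elim (fun Q : ↥Too => Finsupp.single Q.1 (1 : ℤ))
          (fun _ : ↥T0 => (0 : Divisor (kRes A) Foo)) (e i) := by
    unfold baseOo
    refine Finset.sum_congr rfl fun i _ => ?_
    rw [hr i]
    cases e i <;> rfl
  have hbZ : baseZero G (fun i => Sum.elim Poo P0 (e i))
      = ∑ i, Sum.elim (fun _ : ↥Too => (0 : Divisor (kRes A) F0))
          (fun Q : ↥T0 => Finsupp.single Q.1 (1 : ℤ)) (e i) := by
    unfold baseZero
    refine Finset.sum_congr rfl fun i _ => ?_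
    rw [hr i]
    cases e i <;> rfl
  have hnnOo : ∀ x : ↥Too ⊕ ↥T0, (0 : Divisor (kRes A) Foo) ≤
      Sum.elim (fun Q : ↥Too => Finsupp.single Q.1 (1 : ℤ))
        (fun _ : ↥T0 => (0 : Divisor (kRes A) Foo)) x := by
    rintro (Q | Q)
    · exact sys_single_nonneg _
    · exact le_rfl
  have hnnZ : ∀ x : ↥Too ⊕ ↥T0, (0 : Divisor (kRes A) F0) ≤
      Sum.elim (fun _ : ↥Too => (0 : Divisor (kRes A) F0))
        (fun Q : ↥T0 => Finsupp.single Q.1 (1 : ℤ)) x := by
    rintro (Q | Q)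
    · exact le_rfl
    · exact sys_single_nonneg _
  have h1 : (0 : Divisor (kRes A) Foo) ≤ baseOo G (fun i => Sum.elim Poo P0 (e i)) := by
    rw [hbOo]
    exact Finset.sum_nonneg fun i _ => hnnOo (e i)
  have h3 : (0 : Divisor (kRes A) F0) ≤ baseZero G (fun i => Sum.elim Poo P0 (e i)) := by
    rw [hbZ]
    exact Finset.sum_nonneg fun i _ => hnnZ (e i)
  have h2 : baseOo G (fun i => Sum.elim Poo P0 (e i)) ≤ rrSum Too := by
    rw [hbOo]
    refine le_trans (sys_sum_embedding_le e _ hnnOo) (le_of_eq ?_)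
    rw [Fintype.sum_sum_type]
    simp only [Sum.elim_inl, Sum.elim_inr, Finset.sum_const_zero, add_zero]
    exact Finset.sum_coe_sort Too (fun v => Finsupp.single v (1 : ℤ))
  have h4 : baseZero G (fun i => Sum.elim Poo P0 (e i)) ≤ rrSum T0 := by
    rw [hbZ]
    refine le_trans (sys_sum_embedding_le e _ hnnZ) (le_of_eq ?_)
    rw [Fintype.sum_sum_type]
    simp only [Sum.elim_inl, Sum.elim_inr, Finset.sum_const_zero, zero_add]
    exact Finset.sum_coe_sort T0 (fun v => Finsupp.single v (1 : ℤ))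
  refine ⟨fun i => Sum.elim Poo P0 (e i), fun i => Sum.elim too t0 (e i), ?_, ?_, ?_⟩
  · intro i j hij
    have hij' : G.r (Sum.elim Poo P0 (e i)) = G.r (Sum.elim Poo P0 (e j)) := hij
    rw [hr i, hr j] at hij'
    exact e.injective (hptinj hij')
  · exact sys_nodalBase_of_le G hB h1 h2 h3 h4
  · intro i
    show IsNodalUnrCoord G (Sum.elim Poo P0 (e i)) (Sum.elim too t0 (e i))
    cases e i with
    | inl Q => exact htoo Q
    | inr Q => exact ht0 Q

/-- **ORD-GA-SYS**, statement form. -/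
def NodalSysStatement : Prop :=
  ∀ (N p : ℕ) (A : ValuationSubring Qb) (Foo F0 : Type) [Field Foo] [Field F0]
    [Algebra (kRes A) Foo] [Algebra (kRes A) F0] (ι : Type) [Finite ι]
    (G : NodalData N A Foo F0 ι) (g : ℕ), NodalSetup N p A G g → NodalLift G →
    Infinite (kRes A) → RRHyp (kRes A) Foo → RRHyp (kRes A) F0 →
    g + 1 ≤ genusFF (kRes A) Foo + genusFF (kRes A) F0 + Nat.card ι →
    ∃ (O : Fin g → Place Qb (FLb N)) (t : Fin g → FLb N), IsNodalJacSystem G g O t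

/-- **ORD-GA-SYS.** -/
theorem nodalSys : NodalSysStatement := by
  intro N p A Foo F0 _ _ _ _ ι _ G g hS hL hInf hoo h0 hNC
  haveI := hInf
  exact exists_nodalJacSystem G hS hL hoo h0 hNC

end Fermat.Agent.H69.ORD

end
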